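import Fermat.Agent.Ribet.H220.S2Level
import Fermat.Agent.A2.H708.GaussLevel

/-!
# Row 38 / S33, WALL-p, (S2), leaf **GD** (`H220.GaussDescentStatement`) — helper216

`gaussDescent : H220.GaussDescentStatement` (VERBATIM): if `R_E = P ∩ E` is a discrete valuation
ring and `y ∈ F_{N,E}` has image `ι y ∈ ℚ̄(X₀(N))` in the Gauss ring `H708.Vinf` over `P`, then
`y` lies in the Gauss ring `V∞` of level `E`.

Proof: normal form `y · U₂ = c · U₁` over `R_E` (`H708.exists_normal_form`, `R_E` noetherian);
pushing the coefficients to `P` keeps `U₁, U₂` primitive, so `ι y · U₂' = c · U₁'` is a normal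
form over `P` and `H708.isGaussInt_iff_of_normal_form` gives `c ∈ P`, i.e. `c ∈ R_E`; the same
lemma over `R_E` gives `y ∈ V∞`.
-/

set_option autoImplicit false
set_option synthInstance.maxHeartbeats 400000
set_option maxHeartbeats 1600000

noncomputable section

namespace Fermat.Agent.Ribet.H216

open AlgebraicCurve ModularCurve HahnSeries
open Fermat.Agent.A2

/-- The inclusion `R_E → P` of valuation rings. -/
def reToP (P : ValuationSubring Qb) (E : IntermediateField ℚ Qb) : RE P E →+* P where
  toFun r := ⟨algebraMap E Qb (r : E), r.2⟩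
  map_one' := Subtype.ext (map_one _)
  map_mul' _ _ := Subtype.ext (map_mul _ _ _)
  map_zero' := Subtype.ext (map_zero _)
  map_add' _ _ := Subtype.ext (map_add _ _ _)

theorem coe_reToP (P : ValuationSubring Qb) (E : IntermediateField ℚ Qb) (r : RE P E) :
    ((reToP P E r : P) : Qb) = algebraMap E Qb (r : E) := rfl

/-- Pushing `R_E`-integral series to `P`-integral series commutes with the inclusions. -/
theorem incl_coeffMap_reToP (P : ValuationSubring Qb) (E : IntermediateField ℚ Qb)
    (U : LaurentSeries (RE P E)) :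
    H708.incl P (coeffMap (reToP P E) U) = coeffMap (algebraMap E Qb) (H708.incl (RE P E) U) := by
  rw [H708.incl, H708.incl, coeffMap_coeffMap, coeffMap_coeffMap]
  exact coeffMap_congr (RingHom.ext fun _ => rfl) U

/-- A unit of `R_E` is a unit of `P` (valuation form). -/
theorem valuation_reToP_eq_one (P : ValuationSubring Qb) (E : IntermediateField ℚ Qb)
    {e : E} (h : (RE P E).valuation e = 1) : P.valuation (algebraMap E Qb e) = 1 := by
  have he0 : e ≠ 0 := by
    rintro rfl
    rw [map_zero] at h
    exact zero_ne_one h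
  have he0' : algebraMap E Qb e ≠ 0 :=
    fun h0 => he0 ((map_eq_zero_iff _ (algebraMap E Qb).injective).mp h0)
  obtain ⟨h1, h2⟩ := (H708.valuation_eq_one_iff_mem (RE P E) he0).mp h
  refine (H708.valuation_eq_one_iff_mem P he0').mpr ⟨h1, ?_⟩
  have : algebraMap E Qb e⁻¹ ∈ P := h2
  rwa [map_inv₀] at this

/-- Primitive over `R_E` ⟹ primitive over `P`. -/
theorem red_coeffMap_reToP_ne_zero (P : ValuationSubring Qb) (E : IntermediateField ℚ Qb)
    {U : LaurentSeries (RE P E)} (h : H708.red (RE P E) U ≠ 0) :
    H708.red P (coeffMap (reToP P E) U) ≠ 0 := by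
  rw [H708.red_ne_zero_iff] at h ⊢
  obtain ⟨n, hn⟩ := h
  exact ⟨n, valuation_reToP_eq_one P E hn⟩

/-- **GD (Gauss descent)** — `H220.GaussDescentStatement`, verbatim. -/
theorem gaussDescent : H220.GaussDescentStatement := by
  intro P E N _ ℓ hℓ hP hdvr V hV y hy
  by_cases hy0 : y = 0
  · rw [hy0]; exact V.zero_mem
  have := hdvr
  have hy0' : ((y : FE E N) : LaurentSeries E) ≠ 0 := fun h => hy0 (Subtype.ext h)
  obtain ⟨c, U₁, U₂, hc, h₁, h₂, hm₁, hm₂, he⟩ :=
    H708.exists_normal_form (A := RE P E) (H708.intGen_full N)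
      (H708.attainsMax_of_isNoetherianRing (RE P E) (modularFunctionFieldFull N)) y.2 hy0'
  rw [hV y]
  rw [H708.isGaussInt_iff_of_normal_form h₁ h₂ hm₂ he]
  -- the normal form over `P`
  have h₁' := red_coeffMap_reToP_ne_zero P E h₁
  have h₂' := red_coeffMap_reToP_ne_zero P E h₂
  have hm₂' : H708.incl P (coeffMap (reToP P E) U₂) ∈
      laurentBaseChange Qb (modularFunctionFieldFull N) := by
    rw [incl_coeffMap_reToP]
    exact Fermat.Agent.S18.H602.coeffMap_mem_laurentBaseChange _ _ hm₂
  have he' : ((T1.H669.iota E (modularFunctionFieldFull N) y :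
        ↥(laurentBaseChange Qb (modularFunctionFieldFull N))) : LaurentSeries Qb) *
      H708.incl P (coeffMap (reToP P E) U₂) =
      H708.cst (algebraMap E Qb c) * H708.incl P (coeffMap (reToP P E) U₁) := by
    rw [incl_coeffMap_reToP, incl_coeffMap_reToP, T1.H669.coe_iota, ← map_mul, he, map_mul]
    congr 1
    exact Fermat.Agent.S18.H602.coeffMap_algebraMap' (algebraMap E Qb) c
  have hG : H708.IsGaussInt P (modularFunctionFieldFull N)
      ((T1.H669.iota E (modularFunctionFieldFull N) y :
        ↥(laurentBaseChange Qb (modularFunctionFieldFull N))) : LaurentSeries Qb) := hy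
  exact (H708.isGaussInt_iff_of_normal_form h₁' h₂' hm₂' he').mp hG

end Fermat.Agent.Ribet.H216

end
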